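import Fermat.Agent.Lib.FF398S.Local
import Fermat.Prelude.Def_AlgebraicCurve_Correspondence

/-!
# Lib/FF398S — global consequences, SEPARABLE char-free version (helper398)

`F'/F` a finite SEPARABLE extension of function fields over `K` (any characteristic), all places
of `F'` of degree one (e.g. `K` algebraically closed):
* `sumRamificationInertia`, `fundamentalIdentity` : `∑_{w | v} e(w|v) f(w|v) = [F' : F]`;
* `pushforwardNormFormula` : `N_* div(g) = div(N g)`.
-/

set_option autoImplicit false
set_option linter.unusedSectionVars false

open AlgebraicCurve IsDedekindDomain IntermediateField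

namespace Fermat.Agent.Lib.FF398S

section Relative

variable {K F F' : Type*} [Field K] [Field F] [Field F'] [Algebra K F] [Algebra K F']
  [Algebra F F'] [IsScalarTower K F F'] [FiniteDimensional F F'] [Algebra.IsSeparable F F']
  [HasPrincipalDivisors K F']

/-- **Fundamental identity** `∑_{w | v} e(w|v) f(w|v) = [F' : F]` when all places of `F'` have
degree one. -/
theorem sumRamificationInertia (hdeg' : ∀ w : Place K F', w.deg = 1) :
    SumRamificationInertia K F F' where
  sum_ramificationIndex_mul_inertiaDeg v := by
    rw [← sum_ramificationIndex v hdeg' (v.fiber F') (fun w => Place.mem_fiber)]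
    refine Finset.sum_congr rfl fun w _ => ?_
    rw [inertiaDeg_eq_one hdeg' w]
    simp

theorem fundamentalIdentity (hdeg' : ∀ w : Place K F', w.deg = 1) :
    FundamentalIdentity K F F' :=
  haveI := sumRamificationInertia (F := F) hdeg'
  inferInstance

/-- **Norm formula** `N_* div(g) = div(N_{F'/F} g)` when all places of `F'` have degree one. -/
theorem pushforwardNormFormula (hdeg' : ∀ w : Place K F', w.deg = 1) :
    Divisor.PushforwardNormFormula K F F' := by
  classical
  intro g hg D hD v
  rw [Divisor.pushforward_apply, ← sum_ord_eq_ord_norm v hdeg' (v.fiber F')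
    (fun w => Place.mem_fiber) g hg]
  rw [← Finset.sum_filter]
  refine Finset.sum_subset_zero_on_sdiff ?_ ?_ ?_
  · intro w hw
    rw [Finset.mem_filter] at hw
    exact Place.mem_fiber.mpr hw.2
  · intro w hw
    rw [Finset.mem_sdiff, Finset.mem_filter, Place.mem_fiber] at hw
    have hnot : w ∉ D.support := fun h => hw.2 ⟨h, hw.1⟩
    rw [Finsupp.notMem_support_iff, hD] at hnot
    exact hnot
  · intro w hw
    rw [hD, inertiaDeg_eq_one hdeg' w]
    simp

end Relative

end Fermat.Agent.Lib.FF398S
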